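import Fermat.Agent.S31.Defs

/-!
# Row S31 — piece D4 (helper934): `pts_of_reduced` from D1, D2, D3

`pts_of_parts : D1Statement R → D2Statement p → D3Statement p → PTS p R` for a torsion-free ring `R`.

* `D1Statement R` : `R ↪ ∏ 𝓞 (K i)` (finitely many number fields) with `c • ∏ 𝓞 (K i) ⊆ image`.
* `D2Statement p` : every prime `v ∣ p` of `𝓞 K` carries a `PadicPoint p (𝓞 K)` detecting `v ^ k`.
* `D3Statement p` : `x ∈ v ^ (e k)` for all `v ∣ p`  ⟹  `p ^ k ∣ x` in `𝓞 K`.

Exact statements below.  Mathlib + `Fermat.Agent.S31.Defs` only.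
-/

set_option autoImplicit false

open IsDedekindDomain NumberField

namespace Fermat.Agent.S31.H934

open Fermat.Agent.S31

/-- **D1 (interface)**: `R` embeds into a finite product of rings of integers of number fields,
with image containing `c` times the product, `c ≥ 1`. -/
def D1Statement (R : Type) [CommRing R] : Prop :=
  ∃ (ι : Type) (_ : Fintype ι) (K : ι → Type) (_ : ∀ i, Field (K i))
    (_ : ∀ i, NumberField (K i)) (φ : ∀ i, R →+* 𝓞 (K i)) (c : ℕ), c ≠ 0 ∧
      (∀ r : R, (∀ i, φ i r = 0) → r = 0) ∧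
      ∀ x : (∀ i, 𝓞 (K i)), ∃ r : R, ∀ i, φ i r = (c : 𝓞 (K i)) * x i

/-- **D2 (interface)**: a prime `v` of `𝓞 K` over `p` gives a `p`-adic point of `𝓞 K` whose
maximal-ideal filtration detects the powers of `v`. -/
def D2Statement (p : ℕ) : Prop :=
  ∀ (K : Type) [Field K] [NumberField K] (v : HeightOneSpectrum (𝓞 K)),
    (p : 𝓞 K) ∈ v.asIdeal →
    ∃ P : PadicPoint p (𝓞 K), ∀ (x : 𝓞 K) (k : ℕ),
      P.χ x ∈ IsLocalRing.maximalIdeal P.O ^ k → x ∈ v.asIdeal ^ k

/-- **D3 (interface)**: membership in high powers of all primes over `p` forces divisibility by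
a power of `p`. -/
def D3Statement (p : ℕ) : Prop :=
  ∀ (K : Type) [Field K] [NumberField K], ∃ e : ℕ, ∀ (k : ℕ) (x : 𝓞 K),
    (∀ v : HeightOneSpectrum (𝓞 K), (p : 𝓞 K) ∈ v.asIdeal → x ∈ v.asIdeal ^ (e * k)) →
    (p : 𝓞 K) ^ k ∣ x

/-- Precomposition of a `p`-adic point with a ring homomorphism. -/
def PadicPoint.comap {p : ℕ} {R R' : Type} [CommRing R] [CommRing R'] (P : PadicPoint p R')
    (φ : R →+* R') : PadicPoint p R where
  O := P.O
  hp := P.hp
  χ := P.χ.comp φ

@[simp] theorem PadicPoint.comap_O {p : ℕ} {R R' : Type} [CommRing R] [CommRing R']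
    (P : PadicPoint p R') (φ : R →+* R') : (PadicPoint.comap P φ).O = P.O := rfl

theorem PadicPoint.comap_χ {p : ℕ} {R R' : Type} [CommRing R] [CommRing R']
    (P : PadicPoint p R') (φ : R →+* R') (t : R) :
    (PadicPoint.comap P φ).χ t = P.χ (φ t) := rfl

/-- Final arithmetic step: `c t = p ^ (n + a) r` with `c = p ^ a c'`, `p ∤ c'` gives `t ∈ m ^ n`
in a torsion-free ring, for any ideal `m ∋ p`. -/
theorem mem_pow_of_mul_eq {R : Type*} [CommRing R] [IsAddTorsionFree R] {p : ℕ} (hp : p.Prime)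
    (m : Ideal R) (hpm : (p : R) ∈ m) (n a c' : ℕ) (hc' : ¬ p ∣ c') (t r : R)
    (h : ((p ^ a * c' : ℕ) : R) * t = (p : R) ^ (n + a) * r) : t ∈ m ^ n := by
  -- cancel `p ^ a`
  have h1 : (c' : R) * t = (p : R) ^ n * r := by
    have hpa : p ^ a ≠ 0 := pow_ne_zero _ hp.ne_zero
    apply IsAddTorsionFree.nsmul_right_injective hpa
    simp only [nsmul_eq_mul]
    push_cast at h ⊢
    rw [← mul_assoc, h]
    ring
  -- Bezout
  have hcop : IsCoprime (c' : ℤ) ((p : ℤ) ^ n) := by
    have : Nat.Coprime c' (p ^ n) :=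
      Nat.Coprime.pow_right n ((Nat.Prime.coprime_iff_not_dvd hp).mpr hc').symm
    have h' := Nat.isCoprime_iff_coprime.mpr this
    simpa using h'
  obtain ⟨u, v, huv⟩ := hcop
  have ht : t = (p : R) ^ n * ((u : R) * r + (v : R) * t) := by
    have hcast : ((u : R) * (c' : R) + (v : R) * (p : R) ^ n) = 1 := by
      have := congrArg (Int.cast : ℤ → R) huv
      push_cast at this
      exact this
    calc t = ((u : R) * (c' : R) + (v : R) * (p : R) ^ n) * t := by rw [hcast, one_mul]
      _ = (u : R) * ((c' : R) * t) + (v : R) * (p : R) ^ n * t := by ring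
      _ = (p : R) ^ n * ((u : R) * r + (v : R) * t) := by rw [h1]; ring
  rw [ht]
  exact Ideal.mul_mem_right _ _ (Ideal.pow_mem_pow hpm n)

/-- **D4**: assembly of PTS from D1, D2, D3. -/
theorem pts_of_parts (p : ℕ) (hp : p.Prime) (R : Type) [CommRing R] [IsAddTorsionFree R]
    (h1 : D1Statement R) (h2 : D2Statement p) (h3 : D3Statement p) : PTS p R := by
  classical
  obtain ⟨ι, instι, K, instF, instN, φ, c, hc, hinj, hsurj⟩ := h1
  intro m _hm hpm n
  -- exponents from D3
  choose e he using fun i => h3 (K i)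
  obtain ⟨a, c', hc', hcc'⟩ := Nat.exists_eq_pow_mul_and_not_dvd hc p hp.ne_one
  set E : ℕ := ∑ i, e i with hE
  set k : ℕ := n + a with hk
  -- the index type of points
  let J : Type := Σ i : ι, {v : HeightOneSpectrum (𝓞 (K i)) // (p : 𝓞 (K i)) ∈ v.asIdeal}
  have hfin : ∀ i : ι, Finite {v : HeightOneSpectrum (𝓞 (K i)) // (p : 𝓞 (K i)) ∈ v.asIdeal} := by
    intro i
    have hp0 : Ideal.span {(p : 𝓞 (K i))} ≠ 0 := by
      rw [Ne, Ideal.zero_eq_bot, Ideal.span_singleton_eq_bot]
      exact_mod_cast hp.ne_zero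
    have := Ideal.finite_factors hp0
    refine Set.Finite.subset this ?_ |>.to_subtype
    intro v hv
    simp only [Set.mem_ofPred_eq] at hv ⊢
    rw [Ideal.dvd_iff_le, Ideal.span_singleton_le_iff_mem]
    exact hv
  have hJ : Finite J := by
    have := hfin
    exact inferInstance
  letI : Fintype J := Fintype.ofFinite J
  -- the points
  choose P hP using fun j : J => h2 (K j.1) j.2.1 j.2.2
  let pt : J → PadicPoint p R := fun j => PadicPoint.comap (P j) (φ j.1)
  refine ⟨(Finset.univ : Finset J).toList.map pt, E * k, ?_⟩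
  intro t ht
  -- each coordinate of `t` is divisible by `p ^ k`
  have hdiv : ∀ i, (p : 𝓞 (K i)) ^ k ∣ φ i t := by
    intro i
    apply he i k
    intro v hv
    have hmem : pt ⟨i, v, hv⟩ ∈ (Finset.univ : Finset J).toList.map pt :=
      List.mem_map.mpr ⟨_, by simp, rfl⟩
    have h' := ht _ hmem
    have h'' : φ i t ∈ v.asIdeal ^ (E * k) := hP ⟨i, v, hv⟩ (φ i t) (E * k) h'
    have hle : e i * k ≤ E * k :=
      Nat.mul_le_mul_right k (Finset.single_le_sum (fun _ _ => Nat.zero_le _) (Finset.mem_univ i))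
    exact Ideal.pow_le_pow_right hle h''
  choose x hx using hdiv
  obtain ⟨r, hr⟩ := hsurj x
  have hkey : ((p ^ a * c' : ℕ) : R) * t = (p : R) ^ (n + a) * r := by
    rw [← sub_eq_zero]
    apply hinj
    intro i
    rw [map_sub, map_mul, map_mul, map_pow, map_natCast, map_natCast, hr i, hx i, ← hcc', ← hk]
    ring
  exact mem_pow_of_mul_eq hp m hpm n a c' hc' t r hkey

/-- **D** in the shape of `Skeleton.pts_of_reduced`, with D1–D3 as explicit inputs
(`D1` for the given `R` is where `Module.Finite ℤ R` and `IsReduced R` are used). -/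
theorem pts_of_reduced_of (p : ℕ) (hp : p.Prime) (R : Type) [CommRing R] [Module.Finite ℤ R]
    [IsReduced R] [IsAddTorsionFree R]
    (h1 : ∀ (R' : Type) [CommRing R'] [Module.Finite ℤ R'] [IsReduced R'] [IsAddTorsionFree R'],
      D1Statement R')
    (h2 : D2Statement p) (h3 : D3Statement p) : PTS p R :=
  pts_of_parts p hp R (h1 R) h2 h3

end Fermat.Agent.S31.H934
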