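import Fermat.Agent.S31.H934.D4

/-!
# Row S31 — piece D3 (helper934, backup owner): `d3 : D3Statement p`

For a number field `K` and a prime number `p` there is `e` such that for all `k` and `x ∈ 𝓞 K`:
`(∀ v ∣ p, x ∈ v ^ (e k)) → p ^ k ∣ x`.  Proof by valuations
(`mem_integers_of_valuation_le_one` applied to `x / p ^ k`).
-/

set_option autoImplicit false

open IsDedekindDomain NumberField WithZero

namespace Fermat.Agent.S31.H934

/-- Generic Dedekind-domain version of D3. -/
theorem exists_exponent_forall_dvd {R : Type*} [CommRing R] [IsDedekindDomain R]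
    (K : Type*) [Field K] [Algebra R K] [IsFractionRing R K] (a : R) (ha : a ≠ 0) :
    ∃ e : ℕ, ∀ (k : ℕ) (x : R),
      (∀ v : HeightOneSpectrum R, a ∈ v.asIdeal → x ∈ v.asIdeal ^ (e * k)) → a ^ k ∣ x := by
  classical
  have hspan : Ideal.span {a} ≠ (0 : Ideal R) := by
    rw [Ne, Ideal.zero_eq_bot, Ideal.span_singleton_eq_bot]
    exact ha
  have hfin : {v : HeightOneSpectrum R | a ∈ v.asIdeal}.Finite := by
    refine (Ideal.finite_factors hspan).subset ?_
    intro v hv
    simp only [Set.mem_ofPred_eq] at hv ⊢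
    rw [Ideal.dvd_iff_le, Ideal.span_singleton_le_iff_mem]
    exact hv
  -- the exponent of `v` in `a`
  let nv : HeightOneSpectrum R → ℕ := fun v =>
    (Associates.mk v.asIdeal).count (Associates.mk (Ideal.span {a} : Ideal R)).factors
  have hnv : ∀ v : HeightOneSpectrum R, v.intValuation a = exp (-(nv v : ℤ)) := fun v =>
    v.intValuation_if_neg ha
  refine ⟨∑ v ∈ hfin.toFinset, nv v, fun k x hx => ?_⟩
  set e : ℕ := ∑ v ∈ hfin.toFinset, nv v with he
  -- key inequality of valuations
  have hval : ∀ v : HeightOneSpectrum R, v.intValuation x ≤ v.intValuation a ^ k := by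
    intro v
    by_cases hv : a ∈ v.asIdeal
    · have h1 : v.intValuation x ≤ exp (-((e * k : ℕ) : ℤ)) :=
        (v.intValuation_le_pow_iff_mem x (e * k)).mpr (hx v hv)
      have hle : nv v ≤ e := by
        rw [he]
        exact Finset.single_le_sum (f := nv) (fun _ _ => Nat.zero_le _)
          (hfin.mem_toFinset.mpr hv)
      have h2 : exp (-((e * k : ℕ) : ℤ)) ≤ v.intValuation a ^ k := by
        rw [hnv v, ← exp_nsmul, exp_le_exp]
        have : (nv v * k : ℤ) ≤ (e * k : ℤ) := by
          exact_mod_cast Nat.mul_le_mul_right k hle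
        simp only [nsmul_eq_mul, Nat.cast_mul]
        linarith
      exact h1.trans h2
    · have h1 : v.intValuation a = 1 := HeightOneSpectrum.intValuation_eq_one_iff.mpr hv
      rw [h1, one_pow]
      exact v.intValuation_le_one x
  -- `x / a ^ k` is integral
  have hak : (algebraMap R K a) ^ k ≠ 0 :=
    pow_ne_zero _ ((map_ne_zero_iff _ (IsFractionRing.injective R K)).mpr ha)
  have hint : algebraMap R K x / (algebraMap R K a) ^ k ∈ (algebraMap R K).range := by
    apply HeightOneSpectrum.mem_integers_of_valuation_le_one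
    intro v
    rw [map_div₀, map_pow, HeightOneSpectrum.valuation_of_algebraMap,
      HeightOneSpectrum.valuation_of_algebraMap]
    have hpos : 0 < v.intValuation a ^ k :=
      pow_pos (zero_lt_iff.mpr (v.intValuation_ne_zero a ha)) k
    exact (div_le_one₀ hpos).mpr (hval v)
  obtain ⟨z, hz⟩ := hint
  refine ⟨z, ?_⟩
  apply IsFractionRing.injective R K
  rw [map_mul, map_pow, hz]
  field_simp

/-- **D3**. -/
theorem d3 (p : ℕ) (hp : p.Prime) : D3Statement p := by
  intro K _ _
  have hp0 : (p : 𝓞 K) ≠ 0 := by exact_mod_cast hp.ne_zero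
  exact exists_exponent_forall_dvd K (p : 𝓞 K) hp0

end Fermat.Agent.S31.H934
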